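/-
helper53 (P-SS2 block (1) / P-MW rationality dictionary): INVARIANT REPRESENTATIVES WITHOUT
DESCENT THEORY.

Setting: a function field `F / K` satisfying Riemann's theorem (`H58.RRHyp`, all places of
degree one), a base place `P₀`, a class `x : Pic0 K F`.

* `IsRepOf P₀ x n E` : `E = D + n·P₀` with `D` of degree `0` and class `x`.
* `exists_minimal_effective` : there are `n : ℕ` and an effective `E` with `IsRepOf P₀ x n E`,
  `E P₀ = 0`, `l(E) = 1`, `n ≤ genus`, minimal and UNIQUE: every effective `E'` with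
  `IsRepOf P₀ x m E'` has `n ≤ m`, and `E' = E` if `m = n`.
* `smul_eq_of_minimal` : every semilinear automorphism fixing `P₀` and `x` fixes `E`.
* `exists_invariant_effective` : the two combined.
-/
import Fermat.Agent.H58.RR.NonSpecial
import Fermat.Prelude.Def_AlgebraicCurve_BaseChangeGalois

set_option autoImplicit false

noncomputable section

open AlgebraicCurve

namespace Fermat.Agent.H53

variable {K F : Type*} [Field K] [Field F] [Algebra K F]

/-! ### Classes and principal divisors -/

theorem pic0_mk_eq_zero_iff (D : Divisor.degZero (K := K) (F := F)) :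
    Pic0.mk D = 0 ↔ Divisor.IsPrincipal (D : Divisor K F) := by
  rw [Pic0.mk, QuotientAddGroup.eq_zero_iff, AddSubgroup.mem_addSubgroupOf]
  exact Divisor.mem_principal

theorem pic0_mk_eq_iff (D D' : Divisor.degZero (K := K) (F := F)) :
    Pic0.mk D = Pic0.mk D' ↔
      ∃ g : F, g ≠ 0 ∧ ∀ v : Place K F, (D' : Divisor K F) v = (D : Divisor K F) v + v.ord g := by
  rw [Pic0.mk, Pic0.mk, QuotientAddGroup.eq, AddSubgroup.mem_addSubgroupOf]
  constructor
  · rintro ⟨g, hg, h⟩
    refine ⟨g, hg, fun v => ?_⟩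
    have := h v
    simp only [AddSubgroup.coe_add, NegMemClass.coe_neg, Finsupp.coe_add, Finsupp.coe_neg,
      Pi.add_apply, Pi.neg_apply] at this
    omega
  · rintro ⟨g, hg, h⟩
    refine ⟨g, hg, fun v => ?_⟩
    have := h v
    simp only [AddSubgroup.coe_add, NegMemClass.coe_neg, Finsupp.coe_add, Finsupp.coe_neg,
      Pi.add_apply, Pi.neg_apply]
    omega

/-- `E = D + n·P₀` with `D` of degree zero and class `x`. -/
def IsRepOf (P₀ : Place K F) (x : Pic0 K F) (n : ℕ) (E : Divisor K F) : Prop :=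
  ∃ D : Divisor.degZero (K := K) (F := F), Pic0.mk D = x ∧
    E = (D : Divisor K F) + Finsupp.single P₀ (n : ℤ)

theorem IsRepOf.degree_eq {P₀ : Place K F} {x : Pic0 K F} {n : ℕ} {E : Divisor K F}
    (hdeg : ∀ v : Place K F, v.deg = 1) (h : IsRepOf P₀ x n E) : Divisor.degree E = n := by
  obtain ⟨D, -, rfl⟩ := h
  rw [Fermat.Agent.H58.rr_degree_add_single hdeg, Divisor.mem_degZero.mp D.2, zero_add]

/-- The action of a semilinear automorphism on representatives. -/
theorem IsRepOf.smul {P₀ : Place K F} {x : Pic0 K F} {n : ℕ} {E : Divisor K F}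
    (h : IsRepOf P₀ x n E) (g : SemilinearAut K F) : IsRepOf (g • P₀) (g • x) n (g • E) := by
  obtain ⟨D, rfl, rfl⟩ := h
  refine ⟨SemilinearAut.degZeroSMulHom g D, (SemilinearAut.pic0_smul_mk g D).symm, ?_⟩
  rw [smul_add, SemilinearAut.smul_single, SemilinearAut.coe_degZeroSMulHom]

theorem divisor_smul_nonneg (g : SemilinearAut K F) {E : Divisor K F} (hE : 0 ≤ E) :
    0 ≤ g • E := by
  rw [Finsupp.le_def] at hE ⊢
  intro w
  rw [SemilinearAut.divisor_smul_apply]
  exact hE _

/-! ### The Riemann-Roch spaces `L(D₀ + d·P₀)` -/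

/-- If `L(D - P) = 0` then `l(D) ≤ 1`. -/
theorem rr_finrank_le_one_of_sub_eq_bot (hdeg : ∀ v : Place K F, v.deg = 1) (D : Divisor K F)
    (P : Place K F) (hbot : riemannRochSpace (D + Finsupp.single P (-1)) = ⊥) :
    Module.finrank K (riemannRochSpace D) ≤ 1 := by
  have hfin : Module.Finite K (riemannRochSpace (D + Finsupp.single P (-1))) := by
    rw [hbot]; infer_instance
  have h1 := (Fermat.Agent.H58.rr_finrank_onestep (D + Finsupp.single P (-1)) P (hdeg P)).2.2
  have h2 : D + Finsupp.single P (-1) + Finsupp.single P 1 = D := by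
    rw [add_assoc, ← Finsupp.single_add]; simp
  rw [h2, hbot, finrank_bot] at h1
  exact h1

/-- A nonzero element of `L(D)`, together with its divisor, gives an effective divisor. -/
theorem rr_effective_of_mem {D Df : Divisor K F} {f : F} (hf : f ∈ riemannRochSpace D)
    (hf0 : f ≠ 0) (hDf : ∀ v : Place K F, Df v = v.ord f) : 0 ≤ D + Df := by
  rw [Finsupp.le_def]
  intro v
  have := ((mem_riemannRochSpace_iff.mp hf) v).resolve_left hf0
  simp only [Finsupp.coe_zero, Pi.zero_apply, Finsupp.coe_add, Pi.add_apply, hDf v]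
  omega

theorem rr_mem_of_effective {D Df : Divisor K F} {f : F}
    (hDf : ∀ v : Place K F, Df v = v.ord f) (h : 0 ≤ D + Df) : f ∈ riemannRochSpace D := by
  rw [mem_riemannRochSpace_iff]
  intro v
  right
  have := Finsupp.le_def.mp h v
  simp only [Finsupp.coe_zero, Pi.zero_apply, Finsupp.coe_add, Pi.add_apply, hDf v] at this
  omega

/-- Two nonzero elements of a one-dimensional `L(D)` have the same divisor. -/
theorem rr_ord_eq_of_finrank_one {D : Divisor K F}
    (h1 : Module.finrank K (riemannRochSpace D) = 1) {f g : F} (hf : f ∈ riemannRochSpace D)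
    (hg : g ∈ riemannRochSpace D) (hf0 : f ≠ 0) (hg0 : g ≠ 0) (v : Place K F) :
    v.ord g = v.ord f := by
  have hf' : (⟨f, hf⟩ : riemannRochSpace D) ≠ 0 := fun h => hf0 (congrArg Subtype.val h)
  obtain ⟨c, hc⟩ := (finrank_eq_one_iff_of_nonzero' (⟨f, hf⟩ : riemannRochSpace D) hf').mp h1
    ⟨g, hg⟩
  have hc' : c • f = g := congrArg Subtype.val hc
  have hc0 : c ≠ 0 := by
    rintro rfl
    rw [zero_smul] at hc'
    exact hg0 hc'.symm
  rw [← hc', Fermat.Agent.H58.rr_smul_ord v hc0]

/-! ### The minimal effective representative -/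

/-- **Minimal effective representative.**  For a class `x` and a base place `P₀` there are a
unique minimal `n` and a unique effective divisor `E` of degree `n` with `[E - n·P₀] = x`. -/
theorem exists_minimal_effective (h : Fermat.Agent.H58.RRHyp K F) (P₀ : Place K F)
    (x : Pic0 K F) :
    ∃ (n : ℕ) (E : Divisor K F), 0 ≤ E ∧ E P₀ = 0 ∧ IsRepOf P₀ x n E ∧ n ≤ genusFF K F ∧
      Module.finrank K (riemannRochSpace E) = 1 ∧
      ∀ (m : ℕ) (E' : Divisor K F), 0 ≤ E' → IsRepOf P₀ x m E' → n ≤ m ∧ (m = n → E' = E) := by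
  classical
  have hP := h.principal
  obtain ⟨D₀, rfl⟩ := Pic0.mk_surjective x
  have hD₀deg : Divisor.degree (D₀ : Divisor K F) = 0 := Divisor.mem_degZero.mp D₀.2
  -- the divisors `D₀ + d·P₀`
  set L : ℕ → Submodule K F := fun d =>
    riemannRochSpace ((D₀ : Divisor K F) + Finsupp.single P₀ (d : ℤ)) with hL
  have hLdeg : ∀ d : ℕ,
      Divisor.degree ((D₀ : Divisor K F) + Finsupp.single P₀ (d : ℤ)) = d := fun d => by
    rw [Fermat.Agent.H58.rr_degree_add_single h.deg_one, hD₀deg, zero_add]
  have hex : ∃ d : ℕ, L d ≠ ⊥ := by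
    refine ⟨genusFF K F, fun hbot => ?_⟩
    have h1 := h.riemann_inequality ((D₀ : Divisor K F) + Finsupp.single P₀ (genusFF K F : ℤ))
    rw [hLdeg] at h1
    have h2 : Module.finrank K (L (genusFF K F)) = 0 := by rw [hbot, finrank_bot]
    have h3 : (Module.finrank K (riemannRochSpace
        ((D₀ : Divisor K F) + Finsupp.single P₀ (genusFF K F : ℤ))) : ℤ) = 0 := by
      exact_mod_cast h2
    omega
  set n : ℕ := Nat.find hex with hn
  have hn_spec : L n ≠ ⊥ := Nat.find_spec hex
  have hn_le : n ≤ genusFF K F := by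
    refine Nat.find_min' hex fun hbot => ?_
    have h1 := h.riemann_inequality ((D₀ : Divisor K F) + Finsupp.single P₀ (genusFF K F : ℤ))
    rw [hLdeg] at h1
    have h2 : Module.finrank K (L (genusFF K F)) = 0 := by rw [hbot, finrank_bot]
    have h3 : (Module.finrank K (riemannRochSpace
        ((D₀ : Divisor K F) + Finsupp.single P₀ (genusFF K F : ℤ))) : ℤ) = 0 := by
      exact_mod_cast h2
    omega
  -- `L(D₀ + (n-1) P₀) = 0`
  have hprev : riemannRochSpace ((D₀ : Divisor K F) + Finsupp.single P₀ (n : ℤ)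
      + Finsupp.single P₀ (-1)) = ⊥ := by
    rcases Nat.eq_zero_or_pos n with h0 | hpos
    · apply Fermat.Agent.H58.rr_space_eq_bot_of_degree_neg
      rw [Fermat.Agent.H58.rr_degree_add_single h.deg_one, hLdeg, h0]
      norm_num
    · have hlt : n - 1 < n := by omega
      have := Nat.find_min hex hlt
      rw [not_not] at this
      have hEq : (D₀ : Divisor K F) + Finsupp.single P₀ (n : ℤ) + Finsupp.single P₀ (-1)
          = (D₀ : Divisor K F) + Finsupp.single P₀ ((n - 1 : ℕ) : ℤ) := by
        rw [add_assoc, ← Finsupp.single_add]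
        congr 2
        omega
      rw [hEq]
      exact this
  have hfin1 : Module.finrank K (L n) ≤ 1 :=
    rr_finrank_le_one_of_sub_eq_bot h.deg_one _ P₀ hprev
  have hfinite : Module.Finite K (L n) := h.finite_space _
  have hrank : Module.finrank K (L n) = 1 := by
    have hpos : 0 < Module.finrank K (L n) := by
      rw [Module.finrank_pos_iff, Submodule.nontrivial_iff_ne_bot]
      exact hn_spec
    omega
  -- a nonzero element
  obtain ⟨f, hfL, hf0⟩ := Submodule.exists_mem_ne_zero_of_ne_bot hn_spec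
  obtain ⟨Df, hDf, hDfdeg⟩ := HasPrincipalDivisors.exists_divisor (K := K) f hf0
  set E : Divisor K F := (D₀ : Divisor K F) + Finsupp.single P₀ (n : ℤ) + Df with hE
  have hEnn : 0 ≤ E := rr_effective_of_mem hfL hf0 hDf
  -- the class
  have hrep : IsRepOf P₀ (Pic0.mk D₀) n E := by
    refine ⟨D₀ + ⟨Df, Divisor.mem_degZero.mpr hDfdeg⟩, ?_, ?_⟩
    · rw [Pic0.mk_add]
      have : Pic0.mk (⟨Df, Divisor.mem_degZero.mpr hDfdeg⟩ : Divisor.degZero (K := K) (F := F))
          = 0 := (pic0_mk_eq_zero_iff _).mpr ⟨f, hf0, hDf⟩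
      rw [this, add_zero]
    · rw [hE]
      simp only [AddSubgroup.coe_add]
      abel
  have hEdeg : Divisor.degree E = n := hrep.degree_eq h.deg_one
  -- `E P₀ = 0`
  have hEP : E P₀ = 0 := by
    rcases Nat.eq_zero_or_pos n with h0 | hpos
    · have : E = 0 := Fermat.Agent.H58.rr_eq_zero_of_degree_eq_zero h.deg_one E hEnn
        (by rw [hEdeg, h0]; rfl)
      rw [this]; rfl
    · by_contra hne
      have hge : 1 ≤ E P₀ := by
        have := Finsupp.le_def.mp hEnn P₀
        simp only [Finsupp.coe_zero, Pi.zero_apply] at this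
        omega
      have hmem : f ∈ riemannRochSpace ((D₀ : Divisor K F) + Finsupp.single P₀ (n : ℤ)
          + Finsupp.single P₀ (-1)) := by
        refine rr_mem_of_effective hDf ?_
        rw [Finsupp.le_def]
        intro v
        have hv := Finsupp.le_def.mp hEnn v
        simp only [Finsupp.coe_zero, Pi.zero_apply, Finsupp.coe_add, Pi.add_apply, hE] at hv hge ⊢
        by_cases hvP : v = P₀
        · subst hvP
          rw [Finsupp.single_eq_same] at hge ⊢
          rw [Finsupp.single_eq_same]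
          omega
        · rw [Finsupp.single_eq_of_ne hvP, Finsupp.single_eq_of_ne hvP] at *
          omega
      rw [hprev, Submodule.mem_bot] at hmem
      exact hf0 hmem
  have hrankE : Module.finrank K (riemannRochSpace E) = 1 := by
    rw [hE, Fermat.Agent.H58.rr_finrank_add_principal _ Df hf0 hDf]
    exact hrank
  refine ⟨n, E, hEnn, hEP, hrep, hn_le, hrankE, ?_⟩
  -- minimality and uniqueness
  intro m E' hE'nn hE'rep
  obtain ⟨D', hD'x, rfl⟩ := hE'rep
  obtain ⟨g, hg0, hg⟩ := (pic0_mk_eq_iff D₀ D').mp hD'x.symm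
  obtain ⟨Dg, hDg, -⟩ := HasPrincipalDivisors.exists_divisor (K := K) g hg0
  have hD'eq : (D' : Divisor K F) = (D₀ : Divisor K F) + Dg := by
    ext v
    rw [Finsupp.add_apply, hDg v, hg v]
  have hgm : g ∈ L m := by
    refine rr_mem_of_effective hDg ?_
    have : (D₀ : Divisor K F) + Finsupp.single P₀ (m : ℤ) + Dg
        = (D' : Divisor K F) + Finsupp.single P₀ (m : ℤ) := by
      rw [hD'eq]; abel
    rw [this]
    exact hE'nn
  have hm_ne : L m ≠ ⊥ := fun hbot => by
    rw [hbot, Submodule.mem_bot] at hgm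
    exact hg0 hgm
  refine ⟨Nat.find_min' hex hm_ne, ?_⟩
  rintro rfl
  ext v
  have hord := rr_ord_eq_of_finrank_one hrank hfL hgm hf0 hg0 v
  rw [hD'eq, hE]
  simp only [Finsupp.coe_add, Pi.add_apply]
  rw [hDg v, hDf v, hord]
  ring

/-- **Invariance.**  A semilinear automorphism fixing the base place and the class fixes the
minimal effective representative. -/
theorem smul_eq_of_minimal {P₀ : Place K F} {x : Pic0 K F} {n : ℕ} {E : Divisor K F}
    (hrep : IsRepOf P₀ x n E) (hE : 0 ≤ E)
    (huniq : ∀ E' : Divisor K F, 0 ≤ E' → IsRepOf P₀ x n E' → E' = E)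
    (g : SemilinearAut K F) (hP₀ : g • P₀ = P₀) (hx : g • x = x) : g • E = E := by
  have h1 := hrep.smul g
  rw [hP₀, hx] at h1
  exact huniq _ (divisor_smul_nonneg g hE) h1

/-- **Invariant effective representative**: the minimal effective representative of a class
is fixed by every semilinear automorphism fixing the base place and the class. -/
theorem exists_invariant_effective (h : Fermat.Agent.H58.RRHyp K F) (P₀ : Place K F)
    (x : Pic0 K F) :
    ∃ (n : ℕ) (E : Divisor K F), 0 ≤ E ∧ E P₀ = 0 ∧ IsRepOf P₀ x n E ∧ n ≤ genusFF K F ∧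
      Module.finrank K (riemannRochSpace E) = 1 ∧
      ∀ g : SemilinearAut K F, g • P₀ = P₀ → g • x = x → g • E = E := by
  obtain ⟨n, E, hE, hEP, hrep, hn, hrank, huniq⟩ := exists_minimal_effective h P₀ x
  exact ⟨n, E, hE, hEP, hrep, hn, hrank, fun g hP₀ hx =>
    smul_eq_of_minimal hrep hE (fun E' hE' hrep' => (huniq n E' hE' hrep').2 rfl) g hP₀ hx⟩

end Fermat.Agent.H53

end
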