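/-
helper53 (P-SS2 block (1) / P-MW rationality dictionary), Galois part.

Setting: `F = L · F₀ ⊆ L((q))` (`laurentBaseChange L F₀`), the coefficientwise action
`arithmeticGalois F₀ σ` of `σ : L ≃ₐ[ℚ] L`, a place `P₀` whose `ord` is the `q`-order
(the cusp `∞`).

* `order_coeffMap_algEquiv` : `σ` preserves the `q`-order.
* `arithmeticGalois_smul_qPlace` : the cusp place is fixed by every `σ`.
* `exists_fixed_generator` : a principal divisor `D` has a generator `f` (normalised by one
  coefficient `= 1`) which is fixed by every `σ` fixing `D`.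
* `exists_invariant_datum` : for `m • x = 0` there are `n ≤ g`, an effective `E` with
  `x = [E - n·P₀]`, `E P₀ = 0`, `l(E) = 1`, and `f ≠ 0` with `div f = m (E - n·P₀)` such that
  every `σ` fixing `x` fixes `E` and `f`.
* `jZero_qPlace`, `jZero_exists_invariant_datum` : the same for `JZero N`.
-/
import Fermat.Agent.H53.SS2.InvRep
import Fermat.Agent.H58.RR.Modular
import Fermat.Agent.H2.KLBRCusp
import Fermat.Prelude.Def_ModularCurve_ArithmeticGalois

set_option autoImplicit false

noncomputable section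

open AlgebraicCurve ModularCurve

namespace Fermat.Agent.H53

section General

variable {L : Type*} [Field L] [Algebra ℚ L]

/-- An automorphism of the coefficient field preserves the `q`-order. -/
theorem order_coeffMap_algEquiv (σ : L ≃ₐ[ℚ] L) (y : LaurentSeries L) :
    (coeffMap (σ : L →+* L) y).order = y.order := by
  rcases eq_or_ne y 0 with rfl | hy
  · rw [map_zero]
  have hne : coeffMap (σ : L →+* L) y ≠ 0 := by
    intro h0
    apply hy
    ext k
    have := congrArg (fun z => HahnSeries.coeff z k) h0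
    simp only [coeffMap_coeff, HahnSeries.coeff_zero] at this
    have h2 : σ (y.coeff k) = 0 := this
    rw [HahnSeries.coeff_zero]
    exact (map_eq_zero_iff σ σ.injective).mp h2
  apply le_antisymm
  · refine HahnSeries.order_le_of_coeff_ne_zero ?_
    rw [coeffMap_coeff]
    intro h0
    have h2 : σ (y.coeff y.order) = 0 := h0
    exact hy (HahnSeries.coeff_order_eq_zero.mp ((map_eq_zero_iff σ σ.injective).mp h2))
  · refine HahnSeries.order_le_of_coeff_ne_zero ?_
    intro h0
    apply hne
    rw [← HahnSeries.coeff_order_eq_zero, coeffMap_coeff]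
    show σ (y.coeff _) = 0
    rw [h0, map_zero]

variable (F₀ : IntermediateField ℚ (LaurentSeries ℚ))

/-- The `q`-order of `σ • f` is the `q`-order of `f`. -/
theorem order_arithmeticGalois_smul (σ : L ≃ₐ[ℚ] L) (f : laurentBaseChange L F₀) :
    ((arithmeticGalois F₀ σ • f : laurentBaseChange L F₀) : LaurentSeries L).order
      = (f : LaurentSeries L).order := by
  rw [coe_arithmeticGalois_smul]
  exact order_coeffMap_algEquiv σ _

/-- **The cusp place is Galois-fixed.** -/
theorem arithmeticGalois_smul_qPlace (P₀ : Place L (laurentBaseChange L F₀))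
    (hP₀ : ∀ f : laurentBaseChange L F₀, P₀.ord f = (f : LaurentSeries L).order)
    (σ : L ≃ₐ[ℚ] L) : arithmeticGalois F₀ σ • P₀ = P₀ := by
  refine Fermat.Agent.H23.place_ext_of_ord _ _ fun f hf => ?_
  have h1 := SemilinearAut.ord_smul (arithmeticGalois F₀ σ) P₀ ((arithmeticGalois F₀ σ)⁻¹ • f)
  rw [smul_inv_smul] at h1
  rw [h1, hP₀] at hf
  rw [hP₀]
  have h2 := order_arithmeticGalois_smul F₀ σ ((arithmeticGalois F₀ σ)⁻¹ • f)
  rw [smul_inv_smul] at h2
  rw [h2]
  exact hf

/-- Coefficients of a constant multiple. -/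
theorem coeff_algebraMap_mul (c : L) (f : laurentBaseChange L F₀) (k : ℤ) :
    ((algebraMap L (laurentBaseChange L F₀) c * f : laurentBaseChange L F₀) :
      LaurentSeries L).coeff k = c * (f : LaurentSeries L).coeff k := by
  have h1 : ((algebraMap L (laurentBaseChange L F₀) c * f : laurentBaseChange L F₀) :
      LaurentSeries L) = algebraMap L (LaurentSeries L) c * (f : LaurentSeries L) := rfl
  rw [h1, algebraMap_laurentSeries_eq_single]
  have h2 : HahnSeries.single (0 : ℤ) c * (f : LaurentSeries L) = c • (f : LaurentSeries L) :=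
    HahnSeries.C_mul_eq_smul
  rw [h2, HahnSeries.coeff_smul, smul_eq_mul]

/-- The divisor of `σ • f`. -/
theorem ord_arithmeticGalois_smul_of_fixed {D : Divisor L (laurentBaseChange L F₀)}
    {f : laurentBaseChange L F₀} (hf : ∀ v : Place L (laurentBaseChange L F₀), D v = v.ord f)
    (σ : L ≃ₐ[ℚ] L) (hσ : arithmeticGalois F₀ σ • D = D)
    (w : Place L (laurentBaseChange L F₀)) :
    w.ord (arithmeticGalois F₀ σ • f) = w.ord f := by
  have h1 := SemilinearAut.ord_smul (arithmeticGalois F₀ σ) ((arithmeticGalois F₀ σ)⁻¹ • w) f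
  rw [smul_inv_smul] at h1
  rw [h1, ← hf, ← hf w]
  conv_rhs => rw [← hσ]
  rw [SemilinearAut.divisor_smul_apply]

/-- **Fixed generator.**  A principal divisor has a generator which is fixed by every `σ`
fixing the divisor. -/
theorem exists_fixed_generator (hRR : Fermat.Agent.H58.RRHyp L (laurentBaseChange L F₀))
    (D : Divisor L (laurentBaseChange L F₀)) (hD : Divisor.IsPrincipal D) :
    ∃ f : laurentBaseChange L F₀, f ≠ 0 ∧
      (∀ v : Place L (laurentBaseChange L F₀), D v = v.ord f) ∧
      ∀ σ : L ≃ₐ[ℚ] L, arithmeticGalois F₀ σ • D = D → arithmeticGalois F₀ σ • f = f := by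
  have hP := hRR.principal
  obtain ⟨v₀⟩ := hRR.exists_place
  obtain ⟨f₀, hf₀, hDf₀⟩ := hD
  -- a nonzero coefficient
  have hcoe : (f₀ : LaurentSeries L) ≠ 0 := fun h => hf₀ (Subtype.ext h)
  set k₀ : ℤ := (f₀ : LaurentSeries L).order with hk₀
  set c : L := (f₀ : LaurentSeries L).coeff k₀ with hc
  have hc0 : c ≠ 0 := fun h0 => hcoe (HahnSeries.coeff_order_eq_zero.mp h0)
  set f : laurentBaseChange L F₀ := algebraMap L (laurentBaseChange L F₀) c⁻¹ * f₀ with hf
  have hf0 : f ≠ 0 := mul_ne_zero ((map_ne_zero _).mpr (inv_ne_zero hc0)) hf₀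
  have hfk : (f : LaurentSeries L).coeff k₀ = 1 := by
    rw [hf, coeff_algebraMap_mul, ← hc, inv_mul_cancel₀ hc0]
  have hord : ∀ v : Place L (laurentBaseChange L F₀), v.ord f = v.ord f₀ := by
    intro v
    rw [hf, v.ord_mul ((map_ne_zero _).mpr (inv_ne_zero hc0)) hf₀,
      Fermat.Agent.H23.ord_algebraMap, zero_add]
  have hDf : ∀ v : Place L (laurentBaseChange L F₀), D v = v.ord f := fun v => by
    rw [hord, hDf₀]
  refine ⟨f, hf0, hDf, fun σ hσ => ?_⟩
  -- `σ f / f` has trivial divisor, hence is constant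
  set g : laurentBaseChange L F₀ := arithmeticGalois F₀ σ • f with hg
  have hg0 : g ≠ 0 := by
    rw [hg]
    intro h0
    apply hf0
    have := congrArg (fun z => (arithmeticGalois F₀ σ)⁻¹ • z) h0
    simpa using this
  have hgord : ∀ w : Place L (laurentBaseChange L F₀), w.ord g = w.ord f := fun w =>
    ord_arithmeticGalois_smul_of_fixed F₀ hDf σ hσ w
  have hmem : g * f⁻¹ ∈ riemannRochSpace (0 : Divisor L (laurentBaseChange L F₀)) := by
    rw [mem_riemannRochSpace_iff]
    intro w
    right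
    rw [w.ord_mul hg0 (inv_ne_zero hf0), w.ord_inv, hgord]
    simp
  obtain ⟨c', hc'⟩ := (Fermat.Agent.H58.rr_mem_zero_iff hRR.deg_one v₀).mp hmem
  have hgc : g = algebraMap L (laurentBaseChange L F₀) c' * f := by
    rw [← hc', mul_assoc, inv_mul_cancel₀ hf0, mul_one]
  -- compare the coefficients at `k₀`
  have h1 : (g : LaurentSeries L).coeff k₀ = 1 := by
    rw [hg, coe_arithmeticGalois_smul, coeffMap_coeff, hfk]
    exact map_one σ
  have h2 : (g : LaurentSeries L).coeff k₀ = c' := by
    rw [hgc, coeff_algebraMap_mul, hfk, mul_one]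
  have hc'1 : c' = 1 := by rw [← h2, h1]
  rw [hgc, hc'1, map_one, one_mul]

/-- **Invariant datum of a torsion class.**  For `m • x = 0`: the minimal effective
representative `E` of `x` relative to the cusp place `P₀` and a function `f` with
`div f = m (E - n·P₀)`, both fixed by every `σ` fixing `x`. -/
theorem exists_invariant_datum (hRR : Fermat.Agent.H58.RRHyp L (laurentBaseChange L F₀))
    (P₀ : Place L (laurentBaseChange L F₀))
    (hP₀ : ∀ f : laurentBaseChange L F₀, P₀.ord f = (f : LaurentSeries L).order)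
    (m : ℤ) (x : Pic0 L (laurentBaseChange L F₀)) (hx : m • x = 0) :
    ∃ (n : ℕ) (E : Divisor L (laurentBaseChange L F₀)) (f : laurentBaseChange L F₀),
      0 ≤ E ∧ E P₀ = 0 ∧ IsRepOf P₀ x n E ∧ n ≤ genusFF L (laurentBaseChange L F₀) ∧
      Module.finrank L (riemannRochSpace E) = 1 ∧ f ≠ 0 ∧
      (∀ v : Place L (laurentBaseChange L F₀),
        v.ord f = m * (E v - (Finsupp.single P₀ (n : ℤ) : Divisor L _) v)) ∧
      ∀ σ : L ≃ₐ[ℚ] L, σ • x = x →
        arithmeticGalois F₀ σ • E = E ∧ arithmeticGalois F₀ σ • f = f := by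
  obtain ⟨n, E, hE, hEP, hrep, hn, hrank, hinv⟩ := exists_invariant_effective hRR P₀ x
  obtain ⟨D, hDx, hED⟩ := hrep
  -- `m • D` is principal
  have hprin : Divisor.IsPrincipal (m • (D : Divisor L (laurentBaseChange L F₀))) := by
    have h1 : Pic0.mk (m • D) = 0 := by
      have : Pic0.mk (m • D) = m • Pic0.mk D :=
        map_zsmul (QuotientAddGroup.mk' _) m D
      rw [this, hDx, hx]
    have h2 := (pic0_mk_eq_zero_iff (m • D)).mp h1
    simpa using h2
  obtain ⟨f, hf0, hDf, hfix⟩ := exists_fixed_generator F₀ hRR _ hprin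
  have hDE : (D : Divisor L (laurentBaseChange L F₀)) = E - Finsupp.single P₀ (n : ℤ) := by
    rw [hED]; abel
  refine ⟨n, E, f, hE, hEP, ⟨D, hDx, hED⟩, hn, hrank, hf0, fun v => ?_, fun σ hσ => ?_⟩
  · rw [← hDf v, hDE]
    simp only [Finsupp.coe_smul, Finsupp.coe_sub, Pi.smul_apply, Pi.sub_apply, smul_eq_mul]
  · have hσP : arithmeticGalois F₀ σ • P₀ = P₀ := arithmeticGalois_smul_qPlace F₀ P₀ hP₀ σ
    have hσE : arithmeticGalois F₀ σ • E = E := hinv _ hσP hσ
    refine ⟨hσE, hfix σ ?_⟩
    rw [hDE, smul_comm, smul_sub, hσE, SemilinearAut.smul_single, hσP]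

end General

/-! ### The modular Jacobian -/

section Modular

variable (N : ℕ) [NeZero N]

/-- The `q`-expansion of `j` over `ℚ̄` has order `-1`. -/
theorem order_coeffEmb_jq_bar : (coeffEmb (AlgebraicClosure ℚ) jq).order = -1 := by
  have h1 : (coeffEmb (AlgebraicClosure ℚ) jq).coeff (-1) = 1 := by
    rw [coeffEmb_coeff, coeff_jq_neg_one, map_one]
  have hne : coeffEmb (AlgebraicClosure ℚ) jq ≠ 0 := by
    intro h0
    rw [h0, HahnSeries.coeff_zero] at h1
    exact zero_ne_one h1
  have hle : (coeffEmb (AlgebraicClosure ℚ) jq).order ≤ -1 :=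
    HahnSeries.order_le_of_coeff_ne_zero (by rw [h1]; exact one_ne_zero)
  by_contra hcon
  have hlt : (coeffEmb (AlgebraicClosure ℚ) jq).order < -1 := lt_of_le_of_ne hle hcon
  apply hne
  rw [← HahnSeries.coeff_order_eq_zero, coeffEmb_coeff, coeff_jq_of_lt hlt, map_zero]

omit [NeZero N] in
/-- **The cusp `∞` of `X₀(N)`**: a place of the function field over `ℚ̄` whose `ord` is the
`q`-order. -/
theorem jZero_qPlace : ∃ P₀ : Place (AlgebraicClosure ℚ) (modularFunctionFieldBar N),
    ∀ f : modularFunctionFieldBar N,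
      P₀.ord f = (f : LaurentSeries (AlgebraicClosure ℚ)).order := by
  let ι' : modularFunctionFieldBar N →+* LaurentSeries (AlgebraicClosure ℚ) :=
    ((modularFunctionFieldBar N).val : _ →+* LaurentSeries (AlgebraicClosure ℚ))
  have hconst : ∀ a : AlgebraicClosure ℚ, a ≠ 0 →
      (ι' (algebraMap (AlgebraicClosure ℚ) (modularFunctionFieldBar N) a)).order = 0 := by
    intro a ha
    have : ι' (algebraMap (AlgebraicClosure ℚ) (modularFunctionFieldBar N) a)
        = HahnSeries.single 0 a := by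
      show algebraMap (AlgebraicClosure ℚ) (LaurentSeries (AlgebraicClosure ℚ)) a = _
      exact algebraMap_laurentSeries_eq_single (AlgebraicClosure ℚ) a
    rw [this, HahnSeries.order_single ha]
  have hjq : jq ∈ modularFunctionFieldFull N := by
    have h := jqd_mem_full N (one_dvd N)
    rwa [qExpand_one_apply] at h
  let x : modularFunctionFieldBar N :=
    ⟨coeffEmb (AlgebraicClosure ℚ) jq, coeffEmb_mem_laurentBaseChange (AlgebraicClosure ℚ) hjq⟩
  have hx : (ι' x).order = -1 := order_coeffEmb_jq_bar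
  obtain ⟨P, hP⟩ := Fermat.Agent.H2.klbr_cusp_place ι' hconst x hx
  exact ⟨P, fun f => hP f⟩

/-- **Invariant datum for `J₀(N)`** (P-SS2 block (1)): for `x ∈ J₀(N)(ℚ̄)` with `m • x = 0`
there are `n ≤ g`, an effective divisor `E` with `x = [E - n·∞]`, `E(∞) = 0`, `l(E) = 1`, and a
function `f ≠ 0` with `div f = m (E - n·∞)`, such that every `σ ∈ G_ℚ` fixing `x` fixes `E` and
`f` (coefficientwise on `q`-expansions). -/
theorem jZero_exists_invariant_datum (m : ℤ) (x : JZero N) (hx : m • x = 0) :
    ∃ (P₀ : Place (AlgebraicClosure ℚ) (modularFunctionFieldBar N)) (n : ℕ)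
      (E : Divisor (AlgebraicClosure ℚ) (modularFunctionFieldBar N))
      (f : modularFunctionFieldBar N),
      (∀ h : modularFunctionFieldBar N,
        P₀.ord h = (h : LaurentSeries (AlgebraicClosure ℚ)).order) ∧
      0 ≤ E ∧ E P₀ = 0 ∧ IsRepOf P₀ x n E ∧
      n ≤ genusFF (AlgebraicClosure ℚ) (modularFunctionFieldBar N) ∧
      Module.finrank (AlgebraicClosure ℚ) (riemannRochSpace E) = 1 ∧ f ≠ 0 ∧
      (∀ v : Place (AlgebraicClosure ℚ) (modularFunctionFieldBar N),
        v.ord f = m * (E v - (Finsupp.single P₀ (n : ℤ) : Divisor _ _) v)) ∧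
      ∀ σ : AlgebraicClosure ℚ ≃ₐ[ℚ] AlgebraicClosure ℚ, σ • x = x →
        arithmeticGalois (modularFunctionFieldFull N) σ • E = E ∧
        arithmeticGalois (modularFunctionFieldFull N) σ • f = f := by
  obtain ⟨P₀, hP₀⟩ := jZero_qPlace N
  obtain ⟨n, E, f, h1, h2, h3, h4, h5, h6, h7, h8⟩ :=
    exists_invariant_datum (modularFunctionFieldFull N)
      (Fermat.Agent.H58.rrHyp_modularFunctionFieldBar N) P₀ hP₀ m x hx
  exact ⟨P₀, n, E, f, hP₀, h1, h2, h3, h4, h5, h6, h7, h8⟩

/-- The same without torsion hypothesis: the invariant effective representative of any class. -/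
theorem jZero_exists_invariant_effective (x : JZero N) :
    ∃ (P₀ : Place (AlgebraicClosure ℚ) (modularFunctionFieldBar N)) (n : ℕ)
      (E : Divisor (AlgebraicClosure ℚ) (modularFunctionFieldBar N)),
      (∀ h : modularFunctionFieldBar N,
        P₀.ord h = (h : LaurentSeries (AlgebraicClosure ℚ)).order) ∧
      0 ≤ E ∧ E P₀ = 0 ∧ IsRepOf P₀ x n E ∧
      n ≤ genusFF (AlgebraicClosure ℚ) (modularFunctionFieldBar N) ∧
      Module.finrank (AlgebraicClosure ℚ) (riemannRochSpace E) = 1 ∧
      ∀ σ : AlgebraicClosure ℚ ≃ₐ[ℚ] AlgebraicClosure ℚ, σ • x = x →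
        arithmeticGalois (modularFunctionFieldFull N) σ • E = E := by
  obtain ⟨P₀, hP₀⟩ := jZero_qPlace N
  obtain ⟨n, E, h1, h2, h3, h4, h5, h6⟩ := exists_invariant_effective
    (Fermat.Agent.H58.rrHyp_modularFunctionFieldBar N) P₀ x
  exact ⟨P₀, n, E, hP₀, h1, h2, h3, h4, h5, fun σ hσ =>
    h6 _ (arithmeticGalois_smul_qPlace (modularFunctionFieldFull N) P₀ hP₀ σ) hσ⟩

end Modular

end Fermat.Agent.H53

end
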